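import Mathlib.RingTheory.FiniteLength
import Mathlib.RingTheory.SimpleModule.Basic
import Mathlib.RingTheory.Ideal.Quotient.Basic
import Mathlib.RingTheory.Artinian.Module
import Mathlib.RingTheory.Noetherian.Basic

set_option autoImplicit false

namespace Fermat.Agent.S57

/-- A module over an `O`-algebra `A` which is spanned over `O` by finitely many elements and killed
by a generator of a maximal ideal of `O` has finite length over `A`. -/
theorem isFiniteLength_of_span {O A Q : Type} [CommRing O] [CommRing A] [Algebra O A]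
    [AddCommGroup Q] [Module A Q] (w : O) (hw : (Ideal.span {w}).IsMaximal)
    {d : ℕ} (q : Fin d → Q)
    (hspan : ∀ x : Q, ∃ c : Fin d → O, x = ∑ i, algebraMap O A (c i) • q i)
    (hkill : ∀ x : Q, algebraMap O A w • x = 0) : IsFiniteLength A Q := by
  let _ : Module O Q := Module.compHom Q (algebraMap O A)
  have : IsScalarTower O A Q := ⟨fun a b x => by
    change (a • b) • x = algebraMap O A a • (b • x)
    rw [Algebra.smul_def, mul_smul]⟩
  have hsmul : ∀ (a : O) (x : Q), a • x = algebraMap O A a • x := fun _ _ => rfl
  have : IsSimpleModule O (O ⧸ Ideal.span {w}) := isSimpleModule_iff_isCoatom.mpr hw.out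
  let g0 : Fin d → (O ⧸ Ideal.span {w}) →ₗ[O] Q := fun i =>
    Submodule.liftQ (Ideal.span {w}) (LinearMap.toSpanSingleton O Q (q i)) (by
      rw [Ideal.span, Submodule.span_le]
      rintro _ rfl
      simp only [SetLike.mem_coe, LinearMap.mem_ker, LinearMap.toSpanSingleton_apply]
      rw [hsmul, hkill])
  let g : (Fin d → (O ⧸ Ideal.span {w})) →ₗ[O] Q := LinearMap.lsum O _ O g0
  have hg : Function.Surjective g := by
    intro x
    obtain ⟨c, hc⟩ := hspan x
    refine ⟨fun i => Submodule.Quotient.mk (c i), ?_⟩
    rw [hc]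
    simp only [g, LinearMap.lsum_apply, LinearMap.sum_apply, LinearMap.comp_apply,
      LinearMap.proj_apply]
    refine Finset.sum_congr rfl fun i _ => ?_
    simp only [g0, Submodule.liftQ_apply, LinearMap.toSpanSingleton_apply]
    rfl
  have h1 : IsFiniteLength O (Fin d → (O ⧸ Ideal.span {w})) :=
    isFiniteLength_iff_isNoetherian_isArtinian.mpr ⟨inferInstance, inferInstance⟩
  have h2 := isFiniteLength_iff_isNoetherian_isArtinian.mp (h1.of_surjective hg)
  exact isFiniteLength_iff_isNoetherian_isArtinian.mpr
    ⟨isNoetherian_of_tower O h2.1, isArtinian_of_tower O h2.2⟩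

end Fermat.Agent.S57
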