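import Mathlib.RingTheory.Regular.ProjectiveDimension
import Mathlib.RingTheory.FiniteLength
import Mathlib.RingTheory.SimpleModule.Basic
import Mathlib.RingTheory.LocalRing.Module

set_option autoImplicit false

namespace Fermat.Agent.S57

open CategoryTheory Abelian IsLocalRing Module RingTheory.Sequence

variable {A : Type} [CommRing A] [IsLocalRing A]

/-- Finite length modules over a local ring whose residue field has projective dimension `≤ n`
have projective dimension `≤ n`. -/
theorem hasProjectiveDimensionLE_of_isFiniteLength (n : ℕ)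
    (hk : HasProjectiveDimensionLE (ModuleCat.of A (A ⧸ maximalIdeal A)) n)
    {L : Type} [AddCommGroup L] [Module A L] (hL : IsFiniteLength A L) :
    HasProjectiveDimensionLE (ModuleCat.of A L) n := by
  induction hL with
  | @of_subsingleton M _ _ _ =>
    have h0 : Limits.IsZero (ModuleCat.of A M) := ModuleCat.isZero_of_subsingleton _
    have := h0.hasProjectiveDimensionLT_zero
    exact hasProjectiveDimensionLT_of_ge _ 0 _ (Nat.zero_le _)
  | @of_simple_quotient M _ _ N hs _ ih =>
    obtain ⟨m, hm, ⟨e⟩⟩ := isSimpleModule_iff_quot_maximal.mp hs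
    rw [eq_maximalIdeal hm] at e
    have hS := LinearMap.shortExact_shortComplexKer (f := N.mkQ) N.mkQ_surjective
    refine hS.hasProjectiveDimensionLT_X₂ (n + 1) ?_ ?_
    · have e1 : N ≃ₗ[A] LinearMap.ker N.mkQ := LinearEquiv.ofEq _ _ N.ker_mkQ.symm
      exact hasProjectiveDimensionLT_of_iso e1.toModuleIso (n + 1)
    · exact hasProjectiveDimensionLT_of_iso e.symm.toModuleIso (n + 1)

variable [IsNoetherianRing A]

/-- Abstract freeness criterion (a special case of Auslander-Buchsbaum). -/
theorem free_of_isWeaklyRegular (xs : List A) (hxs : IsRegular A xs)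
    (hm : Ideal.ofList xs = maximalIdeal A)
    {N : Type} [AddCommGroup N] [Module A N] [Module.Finite A N] (ys : List A)
    (hys : IsWeaklyRegular N ys) (hmem : ∀ y ∈ ys, y ∈ maximalIdeal A)
    (hlen : ys.length = xs.length)
    (hfl : IsFiniteLength A (N ⧸ Ideal.ofList ys • (⊤ : Submodule A N))) :
    Module.Free A N := by
  rcases subsingleton_or_nontrivial N with hN | hN
  · infer_instance
  have h1 := ModuleCat.projectiveDimension_quotient_eq_length.{0} xs hxs
  have hk : HasProjectiveDimensionLE (ModuleCat.of A (A ⧸ maximalIdeal A)) xs.length := by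
    rw [← projectiveDimension_le_iff, ← hm,
      ← ModuleCat.projectiveDimension_eq_of_linearEquiv
        (M := ModuleCat.of A (Shrink.{0} (A ⧸ Ideal.ofList xs)))
        (N := ModuleCat.of A (A ⧸ Ideal.ofList xs))
        (Shrink.linearEquiv A (A ⧸ Ideal.ofList xs)), h1]
  have h2 := hasProjectiveDimensionLE_of_isFiniteLength xs.length hk hfl
  rw [← projectiveDimension_le_iff] at h2
  have h3 := ModuleCat.projectiveDimension_quotient_eq_add_length_of_isWeaklyRegular
    (ModuleCat.of A N) ys hys hmem
  rw [h3, hlen] at h2
  have h4 : projectiveDimension (ModuleCat.of A N) ≤ (0 : ℕ) := by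
    have : projectiveDimension (ModuleCat.of A N) + (xs.length : WithBot ℕ∞)
        ≤ ((0 : ℕ) : WithBot ℕ∞) + (xs.length : WithBot ℕ∞) := by simpa using h2
    exact (ENat.WithBot.add_le_add_natCast_right_iff).mp this
  rw [projectiveDimension_le_iff] at h4
  have h5 : Projective (ModuleCat.of A N) := (projective_iff_hasProjectiveDimensionLE_zero _).mpr h4
  have h6 : Module.Projective A N := (IsProjective.iff_projective _).mpr h5
  exact Module.free_of_flat_of_isLocalRing

end Fermat.Agent.S57
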