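import Mathlib.RingTheory.MvPowerSeries.Basic
import Mathlib.RingTheory.MvPowerSeries.Inverse
import Mathlib.RingTheory.Regular.RegularSequence
import Mathlib.RingTheory.DiscreteValuationRing.Basic

set_option autoImplicit false

namespace Fermat.Agent.S57

open RingTheory.Sequence MvPowerSeries

noncomputable def xsList (O : Type) [CommRing O] (w : O) (r : Nat) :
    List (MvPowerSeries (Fin r) O) :=
  List.ofFn (fun i : Fin r => (MvPowerSeries.X i : MvPowerSeries (Fin r) O)) ++
    [MvPowerSeries.C w]

theorem mem_span_X_image_iff {σ O : Type*} [CommRing O] (T : Finset σ)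
    (f : MvPowerSeries σ O) :
    f ∈ Ideal.span ((fun j : σ => (X j : MvPowerSeries σ O)) '' (T : Set σ)) ↔
      ∀ m : σ →₀ ℕ, (∀ j ∈ T, m j = 0) → coeff m f = 0 := by
  classical
  induction T using Finset.induction_on generalizing f with
  | empty =>
    simp only [Finset.coe_empty, Set.image_empty, Ideal.span_empty, Ideal.mem_bot,
      Finset.notMem_empty, false_imp_iff, implies_true, forall_const]
    constructor
    · rintro rfl m
      simp
    · intro h
      ext m
      simpa using h m
  | insert s T hs ih =>
    rw [Finset.coe_insert, Set.image_insert_eq, Ideal.mem_span_insert]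
    constructor
    · rintro ⟨a, z, hz, rfl⟩ m hm
      rw [map_add, (ih z).mp hz m (fun j hj => hm j (Finset.mem_insert_of_mem hj)), add_zero]
      exact X_dvd_iff.mp (Dvd.intro_left a rfl) m (hm s (Finset.mem_insert_self s T))
    · intro h
      let g : MvPowerSeries σ O := fun m => if m s = 0 then coeff m f else 0
      have hg : ∀ m, coeff m g = if m s = 0 then coeff m f else 0 := fun m => rfl
      have h1 : (X s : MvPowerSeries σ O) ∣ f - g := by
        rw [X_dvd_iff]
        intro m hm
        rw [map_sub, hg, if_pos hm, sub_self]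
      obtain ⟨a, ha⟩ := h1
      refine ⟨a, g, (ih g).mpr ?_, ?_⟩
      · intro m hm
        rw [hg]
        split_ifs with h0
        · refine h m ?_
          intro j hj
          rcases Finset.mem_insert.mp hj with rfl | hj
          · exact h0
          · exact hm j hj
        · rfl
      · rw [mul_comm, ← ha]
        ring

theorem ker_constantCoeff_eq_span {O : Type} [CommRing O] (r : Nat) :
    RingHom.ker (MvPowerSeries.constantCoeff (σ := Fin r) (R := O)) =
      Ideal.span (Set.range fun i : Fin r => (MvPowerSeries.X i : MvPowerSeries (Fin r) O)) := by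
  ext f
  have := mem_span_X_image_iff (Finset.univ : Finset (Fin r)) f
  rw [Finset.coe_univ, Set.image_univ] at this
  rw [this, RingHom.mem_ker, ← coeff_zero_eq_constantCoeff_apply]
  constructor
  · intro h m hm
    have : m = 0 := by
      ext j
      simpa using hm j (Finset.mem_univ j)
    rw [this, h]
  · intro h
    exact h 0 (fun j _ => rfl)

theorem xsList_length {O : Type} [CommRing O] (w : O) (r : Nat) :
    (xsList O w r).length = r + 1 := by
  simp [xsList]

theorem setOf_mem_take_xsList {O : Type} [CommRing O] (w : O) (r : Nat) (i : ℕ) (hi : i ≤ r) :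
    {x | x ∈ (xsList O w r).take i} =
      (fun j : Fin r => (X j : MvPowerSeries (Fin r) O)) ''
        ((Finset.univ.filter (fun j : Fin r => j.val < i) : Finset (Fin r)) : Set (Fin r)) := by
  ext x
  have h1 : (xsList O w r).take i =
      (List.ofFn (fun i : Fin r => (MvPowerSeries.X i : MvPowerSeries (Fin r) O))).take i := by
    rw [xsList, List.take_append_of_le_length (by simpa using hi)]
  simp only [h1, Set.mem_ofPred_eq, List.mem_take_iff_getElem, List.length_ofFn,
    List.getElem_ofFn, Finset.coe_filter, Finset.mem_univ, true_and, Set.mem_image]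
  constructor
  · rintro ⟨k, hk, rfl⟩
    exact ⟨⟨k, (lt_min_iff.mp hk).2⟩, (lt_min_iff.mp hk).1, rfl⟩
  · rintro ⟨j, hj, rfl⟩
    exact ⟨j.val, lt_min_iff.mpr ⟨hj, j.isLt⟩, rfl⟩

theorem mem_ofList_take_xsList_iff {O : Type} [CommRing O] (w : O) (r : Nat) (i : ℕ)
    (hi : i ≤ r) (f : MvPowerSeries (Fin r) O) :
    f ∈ Ideal.ofList ((xsList O w r).take i) ↔
      ∀ m : Fin r →₀ ℕ, (∀ j : Fin r, j.val < i → m j = 0) → coeff m f = 0 := by
  rw [Ideal.ofList, setOf_mem_take_xsList w r i hi, mem_span_X_image_iff]
  simp

theorem xsList_isWeaklyRegular {O : Type} [CommRing O] (w : O) (hw : IsSMulRegular O w)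
    (r : Nat) : IsWeaklyRegular (MvPowerSeries (Fin r) O) (xsList O w r) := by
  classical
  refine ⟨fun i hi => ?_⟩
  rw [xsList_length] at hi
  have hir : i ≤ r := Nat.lt_succ_iff.mp hi
  rw [isSMulRegular_quotient_iff_mem_of_smul_mem]
  intro f hf
  rw [smul_eq_mul, Ideal.mul_top] at hf ⊢
  rw [mem_ofList_take_xsList_iff w r i hir] at hf ⊢
  intro m hm
  rcases Nat.lt_or_ge i r with hlt | hge
  · have hx : (xsList O w r)[i]'(by rw [xsList_length]; exact hi) =
        (X ⟨i, hlt⟩ : MvPowerSeries (Fin r) O) := by
      simp only [xsList]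
      rw [List.getElem_append_left (by simpa using hlt)]
      simp
    rw [hx] at hf
    have h2 := hf (m + Finsupp.single ⟨i, hlt⟩ 1) (by
      intro j hj
      have hne : (⟨i, hlt⟩ : Fin r) ≠ j := by
        intro h
        rw [← h] at hj
        exact lt_irrefl _ hj
      simp [hm j hj, Finsupp.single_eq_of_ne' hne])
    rw [smul_eq_mul, mul_comm, X, coeff_add_mul_monomial, mul_one] at h2
    exact h2
  · have hir' : i = r := le_antisymm hir hge
    subst hir'
    have hx : (xsList O w i)[i]'(by rw [xsList_length]; exact hi) =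
        (C w : MvPowerSeries (Fin i) O) := by
      simp only [xsList]
      rw [List.getElem_append_right (by simp)]
      simp
    rw [hx] at hf
    have h2 := hf m hm
    rw [smul_eq_mul, coeff_C_mul] at h2
    exact hw.right_eq_zero_of_smul h2

theorem ofList_xsList {O : Type} [CommRing O] [IsDomain O] [IsDiscreteValuationRing O] (w : O)
    (hw : Irreducible w) (r : Nat) :
    Ideal.ofList (xsList O w r) = IsLocalRing.maximalIdeal (MvPowerSeries (Fin r) O) := by
  have h1 : Ideal.ofList (List.ofFn
      (fun i : Fin r => (MvPowerSeries.X i : MvPowerSeries (Fin r) O))) =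
      RingHom.ker (MvPowerSeries.constantCoeff (σ := Fin r) (R := O)) := by
    rw [ker_constantCoeff_eq_span, Ideal.ofList]
    congr 1
    ext x
    simp [List.mem_ofFn]
  rw [xsList, Ideal.ofList_append, h1, Ideal.ofList_singleton]
  ext f
  rw [IsLocalRing.mem_maximalIdeal, mem_nonunits_iff, MvPowerSeries.isUnit_iff_constantCoeff,
    ← mem_nonunits_iff, ← IsLocalRing.mem_maximalIdeal,
    hw.maximalIdeal_eq, Ideal.mem_span_singleton]
  constructor
  · intro hf
    obtain ⟨a, ha, b, hb, rfl⟩ := Submodule.mem_sup.mp hf
    obtain ⟨c, rfl⟩ := Ideal.mem_span_singleton.mp hb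
    rw [map_add, RingHom.mem_ker.mp ha, zero_add, map_mul, constantCoeff_C]
    exact Dvd.intro _ rfl
  · rintro ⟨c, hc⟩
    have : f = (f - C (constantCoeff f)) + C w * C c := by
      rw [hc, map_mul]
      ring
    rw [this]
    refine Submodule.add_mem_sup ?_ (Ideal.mem_span_singleton.mpr (Dvd.intro _ rfl))
    rw [RingHom.mem_ker, map_sub, constantCoeff_C, sub_self]

end Fermat.Agent.S57
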