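import Fermat.Prelude.Def_Algebra_PatchingDatum
import Fermat.Agent.S57.FreeCrit
import Fermat.Agent.S57.FinLen
import Fermat.Agent.S57.RegSeq
import Mathlib.RingTheory.Regular.Flat
import Mathlib.RingTheory.MvPowerSeries.Equiv

set_option autoImplicit false

namespace Fermat.Agent.S57

open RingTheory.Sequence IsLocalRing

section General

variable {A : Type} [CommRing A]

theorem isWeaklyRegular_pi {xs : List A} (h : IsWeaklyRegular A xs) (d : ℕ) :
    IsWeaklyRegular (Fin d → A) xs := by
  have h1 : IsWeaklyRegular (TensorProduct A (Fin d → A) A) xs := h.isWeaklyRegular_lTensor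
  exact ((TensorProduct.rid A (Fin d → A)).isWeaklyRegular_congr xs).mp h1

end General

variable {𝒪 : Type} [CommRing 𝒪]
    {r : ℕ} {R : Type} [CommRing R] [Algebra 𝒪 R]
    {M : Type} [AddCommGroup M] [Module R M]
    (L : Algebra.PatchingLevel 𝒪 r R M ⊥)

/-- The additive equivalence exhibiting `N` as free over `A` via `φ`. -/
noncomputable def coordEquiv : (Fin L.d → MvPowerSeries (Fin r) 𝒪) ≃+ L.N :=
  AddEquiv.ofBijective
    (AddMonoidHom.mk' (fun c => ∑ i, L.φ (c i) • L.b i) (fun c c' => by
      simp [add_smul, Finset.sum_add_distrib]))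
    (by
      constructor
      · rw [injective_iff_map_eq_zero]
        intro c hc
        have := (L.b_rel c).mp hc
        funext i
        simpa using this i
      · intro x
        obtain ⟨c, hc⟩ := L.b_span x
        exact ⟨c, hc.symm⟩)

theorem coordEquiv_apply (c : Fin L.d → MvPowerSeries (Fin r) 𝒪) :
    coordEquiv L c = ∑ i, L.φ (c i) • L.b i := rfl

theorem coordEquiv_smul (a : MvPowerSeries (Fin r) 𝒪) (c : Fin L.d → MvPowerSeries (Fin r) 𝒪) :
    coordEquiv L (a • c) = L.φ a • coordEquiv L c := by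
  simp [coordEquiv_apply, Finset.smul_sum, mul_smul]

theorem finite_N : Module.Finite (MvPowerSeries (Fin r) 𝒪) L.N := by
  refine ⟨(Submodule.fg_iff_exists_fin_generating_family).mpr ⟨L.d, L.b, ?_⟩⟩
  rw [eq_top_iff]
  intro x _
  obtain ⟨c, hc⟩ := L.b_span x
  rw [hc]
  exact Submodule.sum_mem _ fun i _ => Submodule.smul_mem _ _ (Submodule.subset_span (by simp))

theorem isWeaklyRegular_N {xs : List (MvPowerSeries (Fin r) 𝒪)}
    (h : IsWeaklyRegular (MvPowerSeries (Fin r) 𝒪) xs) :
    IsWeaklyRegular L.N (xs.map L.φ) := by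
  refine ((coordEquiv L).isWeaklyRegular_congr ?_).mp (isWeaklyRegular_pi h L.d)
  exact List.forall₂_map_right_iff.mpr <| List.forall₂_same.mpr fun a _ c => coordEquiv_smul L a c

theorem nontrivial_R [Nontrivial M] : Nontrivial R := by
  by_contra h
  rw [not_nontrivial_iff_subsingleton] at h
  have : Subsingleton M := Module.subsingleton R M
  exact not_subsingleton M this

theorem phi_sub_mem (f : MvPowerSeries (Fin r) 𝒪) :
    L.φ f - algebraMap 𝒪 _ (MvPowerSeries.constantCoeff f) ∈
      Ideal.span (Set.range fun i : Fin r => L.φ (MvPowerSeries.X i)) := by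
  have h1 : f - MvPowerSeries.C (MvPowerSeries.constantCoeff f) ∈
      Ideal.span (Set.range fun i : Fin r => (MvPowerSeries.X i : MvPowerSeries (Fin r) 𝒪)) := by
    rw [← ker_constantCoeff_eq_span, RingHom.mem_ker]
    simp
  have h2 := Ideal.mem_map_of_mem (L.φ : MvPowerSeries (Fin r) 𝒪 →+* MvPowerSeries (Fin r) 𝒪) h1
  rw [Ideal.map_span, ← Set.range_comp] at h2
  have h3 : L.φ (MvPowerSeries.C (MvPowerSeries.constantCoeff f)) =
      algebraMap 𝒪 _ (MvPowerSeries.constantCoeff f) := L.φ.commutes _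
  rw [RingHom.coe_coe, map_sub, h3] at h2
  exact h2

variable [IsDomain 𝒪] [IsDiscreteValuationRing 𝒪] [Nontrivial M]

theorem free_N : Module.Free (MvPowerSeries (Fin r) 𝒪) L.N := by
  obtain ⟨ϖ, hϖ⟩ := IsDiscreteValuationRing.exists_irreducible 𝒪
  have := finite_N L
  have := nontrivial_R (R := R) (M := M)
  have hwr : IsWeaklyRegular (MvPowerSeries (Fin r) 𝒪) (xsList 𝒪 ϖ r) :=
    xsList_isWeaklyRegular ϖ (IsLeftCancelMulZero.mul_left_cancel_of_ne_zero hϖ.ne_zero).isSMulRegular r
  have hm := ofList_xsList ϖ hϖ r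
  have hmem : ∀ x ∈ xsList 𝒪 ϖ r, x ∈ maximalIdeal (MvPowerSeries (Fin r) 𝒪) := by
    intro x hx
    rw [← hm]
    exact Ideal.subset_span hx
  have hreg : IsRegular (MvPowerSeries (Fin r) 𝒪) (xsList 𝒪 ϖ r) :=
    IsRegular.of_isWeaklyRegular_of_mem_maximalIdeal _ hmem hwr
  have hC : L.φ (MvPowerSeries.C ϖ) = MvPowerSeries.C ϖ := L.φ.commutes ϖ
  refine free_of_isWeaklyRegular _ hreg hm ((xsList 𝒪 ϖ r).map L.φ) (isWeaklyRegular_N L hwr)
    ?_ (by simp) ?_
  · intro y hy
    simp only [xsList, List.map_append, List.map_ofFn, List.map_cons, List.map_nil,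
      List.mem_append, List.mem_ofFn, List.mem_singleton] at hy
    rcases hy with ⟨i, rfl⟩ | rfl
    · rw [mem_maximalIdeal, mem_nonunits_iff]
      intro hu
      have := hu.map L.ψ
      simp only [Function.comp_apply] at this
      rw [L.ψ_φ_X i] at this
      exact not_isUnit_zero this
    · rw [hC]
      exact hmem _ (by simp [xsList])
  · have hmax : (Ideal.span {ϖ}).IsMaximal := by
      rw [← (IsDiscreteValuationRing.irreducible_iff_uniformizer ϖ).mp hϖ]
      infer_instance
    have hle : Ideal.span (Set.range fun i : Fin r => L.φ (MvPowerSeries.X i)) ≤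
        Ideal.ofList ((xsList 𝒪 ϖ r).map L.φ) := by
      rw [Ideal.span_le]
      rintro _ ⟨i, rfl⟩
      refine Ideal.subset_span ?_
      simp only [xsList, List.map_append, List.map_ofFn, List.map_cons, List.map_nil,
        List.mem_append, List.mem_ofFn, List.mem_singleton, Set.mem_ofPred_eq]
      exact Or.inl ⟨i, rfl⟩
    refine isFiniteLength_of_span (O := 𝒪) ϖ hmax (fun i => Submodule.Quotient.mk (L.b i)) ?_ ?_
    · intro x
      obtain ⟨n, rfl⟩ := Submodule.Quotient.mk_surjective _ x
      obtain ⟨c, hc⟩ := L.b_span n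
      refine ⟨fun i => MvPowerSeries.constantCoeff (c i), ?_⟩
      have hsum : (∑ i, algebraMap 𝒪 (MvPowerSeries (Fin r) 𝒪) (MvPowerSeries.constantCoeff (c i)) •
          (Submodule.Quotient.mk (L.b i) :
            L.N ⧸ Ideal.ofList ((xsList 𝒪 ϖ r).map L.φ) • (⊤ : Submodule (MvPowerSeries (Fin r) 𝒪) L.N))) =
          Submodule.Quotient.mk (∑ i, algebraMap 𝒪 (MvPowerSeries (Fin r) 𝒪)
            (MvPowerSeries.constantCoeff (c i)) • L.b i) := by
        rw [← Submodule.mkQ_apply, map_sum]
        rfl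
      rw [hsum, Submodule.Quotient.eq, hc, ← Finset.sum_sub_distrib]
      refine Submodule.sum_mem _ fun i _ => ?_
      rw [← sub_smul]
      exact Submodule.smul_mem_smul (hle (phi_sub_mem L (c i))) trivial
    · intro x
      obtain ⟨n, rfl⟩ := Submodule.Quotient.mk_surjective _ x
      rw [← Submodule.Quotient.mk_smul, Submodule.Quotient.mk_eq_zero]
      refine Submodule.smul_mem_smul (Ideal.subset_span ?_) trivial
      simp only [xsList, List.map_append, List.map_ofFn, List.map_cons, List.map_nil,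
        List.mem_append, List.mem_ofFn, List.mem_singleton, Set.mem_ofPred_eq]
      exact Or.inr hC.symm

end Fermat.Agent.S57
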